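import Mathlib.AlgebraicGeometry.Modules.Sheaf
import Mathlib.Topology.Sheaves.SheafCondition.UniqueGluing

/-!
# Gluing sheaves of modules on a scheme along an open cover (sections level)

`SecGlue X ι` is a gluing datum: opens `U i`, modules `N i` on `X` (only their restrictions
to `U i` matter) and additive, `𝒪`-linear, restriction-compatible transition maps
`φ i j V : Γ(N i, V) → Γ(N j, V)` for `V ≤ U i ⊓ U j` satisfying the cocycle condition.
`SecGlue.glued` is the glued module and `SecGlue.gluedEquiv` identifies its sections over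
`V ≤ U k` with those of `N k`.
-/

set_option autoImplicit false

universe u

open CategoryTheory AlgebraicGeometry TopologicalSpace Opposite

noncomputable section

namespace Fermat.Agent.S25.ZAR.H79

variable {X : Scheme.{u}}

/-- Restriction of sections of a module, as an additive map. -/
def res (M : X.Modules) {V W : X.Opens} (h : W ≤ V) : Γ(M, V) →+ Γ(M, W) :=
  (M.presheaf.map (homOfLE h).op).hom

theorem res_res (M : X.Modules) {V W W' : X.Opens} (h : W ≤ V) (h' : W' ≤ W) (x : Γ(M, V)) :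
    res M h' (res M h x) = res M (h'.trans h) x := by
  unfold res
  rw [← AddCommGrpCat.comp_apply, ← Functor.map_comp]
  rfl

theorem res_self (M : X.Modules) {V : X.Opens} (h : V ≤ V) (x : Γ(M, V)) :
    res M h x = x := by
  unfold res
  have : (homOfLE h).op = 𝟙 (op V) := rfl
  rw [this, M.presheaf.map_id]
  rfl

theorem res_map (M : X.Modules) {V W : X.Opens} (f : op V ⟶ op W) (x : Γ(M, V)) :
    M.presheaf.map f x = res M (leOfHom f.unop) x := rfl

/-- Restriction of functions, as a ring map. -/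
def resO (X : Scheme.{u}) {V W : X.Opens} (h : W ≤ V) : Γ(X, V) →+* Γ(X, W) :=
  (X.presheaf.map (homOfLE h).op).hom

theorem resO_resO {V W W' : X.Opens} (h : W ≤ V) (h' : W' ≤ W) (r : Γ(X, V)) :
    resO X h' (resO X h r) = resO X (h'.trans h) r := by
  unfold resO
  rw [← CommRingCat.comp_apply, ← Functor.map_comp]
  rfl

theorem resO_self {V : X.Opens} (h : V ≤ V) (r : Γ(X, V)) : resO X h r = r := by
  unfold resO
  have : (homOfLE h).op = 𝟙 (op V) := rfl
  rw [this, X.presheaf.map_id]
  rfl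

theorem res_smul (M : X.Modules) {V W : X.Opens} (h : W ≤ V) (r : Γ(X, V)) (x : Γ(M, V)) :
    res M h (r • x) = resO X h r • res M h x :=
  Scheme.Modules.map_smul M (homOfLE h) r x

/-- Sections of a sheaf of modules are determined locally. -/
theorem res_ext (M : X.Modules) {A : Type*} (W : A → X.Opens) (V : X.Opens)
    (hW : ∀ a, W a ≤ V) (hcov : V ≤ ⨆ a, W a) (s t : Γ(M, V))
    (h : ∀ a, res M (hW a) s = res M (hW a) t) : s = t :=
  TopCat.Sheaf.eq_of_locally_eq' (⟨M.presheaf, M.isSheaf⟩ : TopCat.Sheaf Ab X) W V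
    (fun a => homOfLE (hW a)) hcov s t h

/-- Compatible local sections of a sheaf of modules glue. -/
theorem res_glue (M : X.Modules) {A : Type*} (W : A → X.Opens) (V : X.Opens)
    (hW : ∀ a, W a ≤ V) (hcov : V ≤ ⨆ a, W a) (sf : ∀ a, Γ(M, W a))
    (hsf : ∀ a b, res M (inf_le_left : W a ⊓ W b ≤ W a) (sf a) =
      res M (inf_le_right : W a ⊓ W b ≤ W b) (sf b)) :
    ∃ s : Γ(M, V), ∀ a, res M (hW a) s = sf a := by
  obtain ⟨s, hs, -⟩ := TopCat.Sheaf.existsUnique_gluing'
    (⟨M.presheaf, M.isSheaf⟩ : TopCat.Sheaf Ab X) W V (fun a => homOfLE (hW a)) hcov sf hsf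
  exact ⟨s, hs⟩


/-- A sections-level gluing datum for sheaves of modules on `X`. -/
structure SecGlue (X : Scheme.{u}) (ι : Type u) where
  /-- the opens of the cover -/
  U : ι → X.Opens
  /-- the modules (only `N i` over `U i` matters) -/
  N : ι → X.Modules
  /-- transition maps on sections over opens inside `U i ⊓ U j` -/
  φ : ∀ (i j : ι) (V : X.Opens), V ≤ U i ⊓ U j → (Γ(N i, V) →+ Γ(N j, V))
  φ_res : ∀ (i j : ι) (V W : X.Opens) (h : V ≤ U i ⊓ U j) (hW : W ≤ V) (x : Γ(N i, V)),
    φ i j W (hW.trans h) (res (N i) hW x) = res (N j) hW (φ i j V h x)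
  φ_smul : ∀ (i j : ι) (V : X.Opens) (h : V ≤ U i ⊓ U j) (r : Γ(X, V)) (x : Γ(N i, V)),
    φ i j V h (r • x) = r • φ i j V h x
  φ_self : ∀ (i : ι) (V : X.Opens) (h : V ≤ U i ⊓ U i) (x : Γ(N i, V)), φ i i V h x = x
  φ_comp : ∀ (i j k : ι) (V : X.Opens) (hij : V ≤ U i ⊓ U j) (hjk : V ≤ U j ⊓ U k)
    (hik : V ≤ U i ⊓ U k) (x : Γ(N i, V)), φ j k V hjk (φ i j V hij x) = φ i k V hik x

namespace SecGlue

variable {ι : Type u} (D : SecGlue X ι)

/-- The group of glued sections over `V`: compatible families `s i ∈ Γ(N i, V ⊓ U i)`. -/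
def sec (V : X.Opens) : AddSubgroup (∀ i, Γ(D.N i, V ⊓ D.U i)) where
  carrier := {s | ∀ i j,
    D.φ i j (V ⊓ D.U i ⊓ D.U j) (inf_le_inf_right (D.U j) inf_le_right)
        (res (D.N i) inf_le_left (s i)) =
      res (D.N j) (inf_le_inf_right (D.U j) inf_le_left) (s j)}
  zero_mem' := by
    intro i j
    simp
  add_mem' := by
    intro a b ha hb i j
    simp only [Pi.add_apply, map_add]
    rw [ha i j, hb i j]
  neg_mem' := by
    intro a ha i j
    simp only [Pi.neg_apply, map_neg]
    rw [ha i j]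

theorem sec_mem (V : X.Opens) (s : D.sec V) (i j : ι) :
    D.φ i j (V ⊓ D.U i ⊓ D.U j) (inf_le_inf_right (D.U j) inf_le_right)
        (res (D.N i) inf_le_left (s.1 i)) =
      res (D.N j) (inf_le_inf_right (D.U j) inf_le_left) (s.1 j) :=
  s.2 i j

/-- Restriction of glued sections. -/
def secRes {V W : X.Opens} (h : W ≤ V) : D.sec V →+ D.sec W where
  toFun s := ⟨fun i => res (D.N i) (inf_le_inf_right (D.U i) h) (s.1 i), by
    intro i j
    simp only
    rw [res_res, res_res]
    have h1 := D.sec_mem V s i j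
    have h2 := D.φ_res i j (V ⊓ D.U i ⊓ D.U j) (W ⊓ D.U i ⊓ D.U j)
      (inf_le_inf_right (D.U j) inf_le_right)
      (inf_le_inf_right (D.U j) (inf_le_inf_right (D.U i) h))
      (res (D.N i) inf_le_left (s.1 i))
    rw [res_res] at h2
    rw [h2, h1, res_res]⟩
  map_zero' := by
    ext i
    simp
  map_add' a b := by
    ext i
    simp

theorem secRes_apply {V W : X.Opens} (h : W ≤ V) (s : D.sec V) (i : ι) :
    (D.secRes h s).1 i = res (D.N i) (inf_le_inf_right (D.U i) h) (s.1 i) := rfl


theorem secRes_secRes {V W W' : X.Opens} (h : W ≤ V) (h' : W' ≤ W) (s : D.sec V) :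
    D.secRes h' (D.secRes h s) = D.secRes (h'.trans h) s := by
  apply Subtype.ext
  funext i
  simp only [secRes_apply, res_res]

theorem secRes_self {V : X.Opens} (h : V ≤ V) (s : D.sec V) : D.secRes h s = s := by
  apply Subtype.ext
  funext i
  simp only [secRes_apply, res_self]

/-- The action of functions on glued sections. -/
instance secSMul (V : X.Opens) : SMul Γ(X, V) (D.sec V) where
  smul r s := ⟨fun i => resO X (inf_le_left : V ⊓ D.U i ≤ V) r • s.1 i, by
    intro i j
    simp only
    rw [res_smul, res_smul, D.φ_smul, D.sec_mem V s i j, resO_resO, resO_resO]⟩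

theorem sec_smul_apply (V : X.Opens) (r : Γ(X, V)) (s : D.sec V) (i : ι) :
    (r • s).1 i = resO X (inf_le_left : V ⊓ D.U i ≤ V) r • s.1 i := rfl

instance secModule (V : X.Opens) : Module Γ(X, V) (D.sec V) where
  one_smul s := by
    apply Subtype.ext
    funext i
    simp [D.sec_smul_apply]
  mul_smul r r' s := by
    apply Subtype.ext
    funext i
    simp [D.sec_smul_apply, mul_smul]
  smul_zero r := by
    apply Subtype.ext
    funext i
    simp [D.sec_smul_apply]
  smul_add r s t := by
    apply Subtype.ext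
    funext i
    simp [D.sec_smul_apply]
  add_smul r r' s := by
    apply Subtype.ext
    funext i
    simp [D.sec_smul_apply, add_smul]
  zero_smul s := by
    apply Subtype.ext
    funext i
    simp [D.sec_smul_apply]

theorem secRes_smul {V W : X.Opens} (h : W ≤ V) (r : Γ(X, V)) (s : D.sec V) :
    D.secRes h (r • s) = resO X h r • D.secRes h s := by
  apply Subtype.ext
  funext i
  simp only [secRes_apply, sec_smul_apply, res_smul, resO_resO]

/-- The abelian presheaf of glued sections. -/
def gluedPresheaf : TopCat.Presheaf Ab X where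
  obj V := AddCommGrpCat.of (D.sec V.unop)
  map f := AddCommGrpCat.ofHom (D.secRes (leOfHom f.unop))
  map_id V := by
    apply AddCommGrpCat.hom_ext
    apply AddMonoidHom.ext
    intro s
    exact D.secRes_self (le_refl _) s
  map_comp f g := by
    apply AddCommGrpCat.hom_ext
    apply AddMonoidHom.ext
    intro s
    exact (D.secRes_secRes (leOfHom f.unop) (leOfHom g.unop) s).symm

instance gluedModule (V : (Opens X)ᵒᵖ) :
    Module (X.ringCatSheaf.obj.obj V) (D.gluedPresheaf.obj V) :=
  D.secModule V.unop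

/-- The presheaf of modules of glued sections. -/
def gluedPre : X.PresheafOfModules :=
  PresheafOfModules.ofPresheaf D.gluedPresheaf (fun _ _ f r s => D.secRes_smul (leOfHom f.unop) r s)


theorem gluedPresheaf_map_apply {V W : (Opens X)ᵒᵖ} (f : V ⟶ W) (s : D.sec V.unop) :
    D.gluedPresheaf.map f s = D.secRes (leOfHom f.unop) s := rfl

theorem gluedPresheaf_isSheaf : D.gluedPresheaf.IsSheaf := by
  rw [TopCat.Presheaf.isSheaf_iff_isSheafUniqueGluing]
  intro A W sf hsf
  change ∀ a, D.sec (W a) at sf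
  have hsf' : ∀ a b, D.secRes (inf_le_left : W a ⊓ W b ≤ W a) (sf a) =
      D.secRes (inf_le_right : W a ⊓ W b ≤ W b) (sf b) := hsf
  -- glue componentwise
  have hex : ∀ i, ∃ t : Γ(D.N i, iSup W ⊓ D.U i),
      ∀ a, res (D.N i) (inf_le_inf_right (D.U i) (le_iSup W a)) t = (sf a).1 i := by
    intro i
    refine res_glue (D.N i) (fun a => W a ⊓ D.U i) (iSup W ⊓ D.U i)
      (fun a => inf_le_inf_right (D.U i) (le_iSup W a)) (by rw [iSup_inf_eq])
      (fun a => (sf a).1 i) ?_
    intro a b
    have h1 := congrArg (fun t : D.sec (W a ⊓ W b) =>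
      res (D.N i) (le_inf (le_inf (inf_le_left.trans inf_le_left) (inf_le_right.trans inf_le_left))
        (inf_le_left.trans inf_le_right) :
          (W a ⊓ D.U i) ⊓ (W b ⊓ D.U i) ≤ W a ⊓ W b ⊓ D.U i) (t.1 i)) (hsf' a b)
    simp only [secRes_apply, res_res] at h1
    exact h1
  choose t ht using hex
  have hmem : t ∈ D.sec (iSup W) := by
    intro i j
    refine res_ext (D.N j) (fun a => W a ⊓ D.U i ⊓ D.U j) (iSup W ⊓ D.U i ⊓ D.U j)
      (fun a => inf_le_inf_right (D.U j) (inf_le_inf_right (D.U i) (le_iSup W a)))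
      (by rw [iSup_inf_eq, iSup_inf_eq]) _ _ ?_
    intro a
    rw [← D.φ_res, res_res, res_res]
    have h1 := D.sec_mem (W a) (sf a) i j
    rw [← ht i a, ← ht j a, res_res, res_res] at h1
    exact h1
  refine ⟨⟨t, hmem⟩, ?_, ?_⟩
  · intro a
    change D.secRes (le_iSup W a) ⟨t, hmem⟩ = sf a
    apply Subtype.ext
    funext i
    rw [secRes_apply]
    exact ht i a
  · intro s' hs'
    change D.sec (iSup W) at s'
    have hs'' : ∀ a, D.secRes (le_iSup W a) s' = sf a := hs'
    apply Subtype.ext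
    funext i
    refine res_ext (D.N i) (fun a => W a ⊓ D.U i) (iSup W ⊓ D.U i)
      (fun a => inf_le_inf_right (D.U i) (le_iSup W a)) (by rw [iSup_inf_eq]) _ _ ?_
    intro a
    rw [ht i a, ← hs'' a, secRes_apply]

/-- The glued sheaf of modules. -/
def glued : X.Modules where
  val := D.gluedPre
  isSheaf := D.gluedPresheaf_isSheaf

theorem glued_presheaf : D.glued.presheaf = D.gluedPresheaf := rfl

/-- Glued sections over `V ≤ U k` give sections of `N k`. -/
def ofSec (k : ι) (V : X.Opens) (h : V ≤ D.U k) : D.sec V →+ Γ(D.N k, V) where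
  toFun s := res (D.N k) (le_inf le_rfl h) (s.1 k)
  map_zero' := by simp
  map_add' a b := by simp

theorem ofSec_apply (k : ι) (V : X.Opens) (h : V ≤ D.U k) (s : D.sec V) :
    D.ofSec k V h s = res (D.N k) (le_inf le_rfl h) (s.1 k) := rfl

/-- Sections of `N k` over `V ≤ U k` give glued sections. -/
def toSec (k : ι) (V : X.Opens) (h : V ≤ D.U k) : Γ(D.N k, V) →+ D.sec V where
  toFun x := ⟨fun i => D.φ k i (V ⊓ D.U i) (inf_le_inf_right (D.U i) h)
      (res (D.N k) inf_le_left x), by
    intro i j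
    simp only
    rw [← D.φ_res, ← D.φ_res, res_res, res_res, D.φ_comp]⟩
  map_zero' := by
    apply Subtype.ext
    funext i
    simp
  map_add' a b := by
    apply Subtype.ext
    funext i
    simp

theorem toSec_apply (k : ι) (V : X.Opens) (h : V ≤ D.U k) (x : Γ(D.N k, V)) (i : ι) :
    (D.toSec k V h x).1 i = D.φ k i (V ⊓ D.U i) (inf_le_inf_right (D.U i) h)
      (res (D.N k) inf_le_left x) := rfl

theorem ofSec_toSec (k : ι) (V : X.Opens) (h : V ≤ D.U k) (x : Γ(D.N k, V)) :
    D.ofSec k V h (D.toSec k V h x) = x := by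
  rw [ofSec_apply, toSec_apply, D.φ_self, res_res, res_self]

theorem toSec_ofSec (k : ι) (V : X.Opens) (h : V ≤ D.U k) (s : D.sec V) :
    D.toSec k V h (D.ofSec k V h s) = s := by
  apply Subtype.ext
  funext i
  rw [toSec_apply, ofSec_apply, res_res]
  have h1 := D.sec_mem V s k i
  have h2 := congrArg (res (D.N i) (le_inf (le_inf inf_le_left (inf_le_left.trans h)) inf_le_right :
    V ⊓ D.U i ≤ V ⊓ D.U k ⊓ D.U i)) h1
  rw [← D.φ_res, res_res, res_res, res_self] at h2
  exact h2

theorem ofSec_secRes (k : ι) {V W : X.Opens} (h : V ≤ D.U k) (hW : W ≤ V) (s : D.sec V) :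
    D.ofSec k W (hW.trans h) (D.secRes hW s) = res (D.N k) hW (D.ofSec k V h s) := by
  rw [ofSec_apply, ofSec_apply, secRes_apply, res_res, res_res]

theorem ofSec_smul (k : ι) (V : X.Opens) (h : V ≤ D.U k) (r : Γ(X, V)) (s : D.sec V) :
    D.ofSec k V h (r • s) = r • D.ofSec k V h s := by
  rw [ofSec_apply, ofSec_apply, sec_smul_apply, res_smul, resO_resO, resO_self]

theorem φ_ofSec (k j : ι) (V : X.Opens) (h : V ≤ D.U k ⊓ D.U j) (s : D.sec V) :
    D.φ k j V h (D.ofSec k V (h.trans inf_le_left) s) = D.ofSec j V (h.trans inf_le_right) s := by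
  rw [ofSec_apply, ofSec_apply]
  have h1 := D.sec_mem V s k j
  have h2 := congrArg (res (D.N j) (le_inf (le_inf le_rfl (h.trans inf_le_left))
    (h.trans inf_le_right) : V ≤ V ⊓ D.U k ⊓ D.U j)) h1
  rw [← D.φ_res, res_res, res_res] at h2
  exact h2

/-- Sections of the glued module over `V ≤ U k` are the sections of `N k`. -/
def gluedEquiv (k : ι) (V : X.Opens) (h : V ≤ D.U k) : Γ(D.glued, V) ≃+ Γ(D.N k, V) where
  toFun s := D.ofSec k V h s
  invFun x := D.toSec k V h x
  left_inv s := D.toSec_ofSec k V h s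
  right_inv x := D.ofSec_toSec k V h x
  map_add' a b := (D.ofSec k V h).map_add a b

theorem gluedEquiv_res (k : ι) {V W : X.Opens} (h : V ≤ D.U k) (hW : W ≤ V)
    (s : Γ(D.glued, V)) :
    D.gluedEquiv k W (hW.trans h) (res D.glued hW s) = res (D.N k) hW (D.gluedEquiv k V h s) :=
  D.ofSec_secRes k h hW s

theorem gluedEquiv_smul (k : ι) (V : X.Opens) (h : V ≤ D.U k) (r : Γ(X, V))
    (s : Γ(D.glued, V)) :
    D.gluedEquiv k V h (r • s) = r • D.gluedEquiv k V h s :=
  D.ofSec_smul k V h r s

theorem φ_gluedEquiv (k j : ι) (V : X.Opens) (h : V ≤ D.U k ⊓ D.U j) (s : Γ(D.glued, V)) :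
    D.φ k j V h (D.gluedEquiv k V (h.trans inf_le_left) s) =
      D.gluedEquiv j V (h.trans inf_le_right) s :=
  D.φ_ofSec k j V h s

end SecGlue

end Fermat.Agent.S25.ZAR.H79

end
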